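/-
Row 37 (S43), block E0, sub-block VERT (helper226).  THE VERTICAL ORDERS, part 1.

Level `N`, `A ∣ q`.  `HasV A f c` : "`v(f) = v(c)`" for the Gauss valuation of `FN N ⊆ ℚ̄((Q))`
attached to `A` (`c` a constant).  Calculus: products, inverses, powers, constants, uniqueness,
`v(T_ℓ f) = (ℓ + 1) v(f)`, and the operator `tau H a f = T_ℓ f / f ^ a` (`= T_ℓ - a` on classes).
-/
import Fermat.Agent.C1.HeckeStable
import Fermat.Agent.GAL.E.HeckeBasic

set_option autoImplicit false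

noncomputable section

namespace Fermat.Agent.S43.E0.Vert

open ModularCurve AlgebraicCurve Fermat.Agent.S24 Fermat.Agent.S24.B Fermat.Agent.GAL
  Fermat.Agent.GAL.E Fermat.Agent.C1

variable {A : ValuationSubring Kbar} {N : ℕ}

/-- "`v(f) = v(c)`" for the Gauss valuation attached to `A`. -/
def HasV (A : ValuationSubring Kbar) {N : ℕ} (f : FN N) (c : Kbar) : Prop :=
  ∃ r, RedS A (f : LaurentSeries Kbar) c r

theorem HasV.ne_zero {f : FN N} {c : Kbar} (h : HasV A f c) : f ≠ 0 := by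
  obtain ⟨r, hr⟩ := h
  rintro rfl
  exact hr.ne_zero rfl

theorem HasV.const_ne_zero {f : FN N} {c : Kbar} (h : HasV A f c) : c ≠ 0 := by
  obtain ⟨r, hr⟩ := h
  exact hr.1

theorem HasV.mul {f g : FN N} {c d : Kbar} (hf : HasV A f c) (hg : HasV A g d) :
    HasV A (f * g) (c * d) := by
  obtain ⟨r, hr⟩ := hf
  obtain ⟨s, hs⟩ := hg
  exact ⟨_, hr.mul hs⟩

theorem HasV.inv {f : FN N} {c : Kbar} (hf : HasV A f c) : HasV A f⁻¹ c⁻¹ := by
  obtain ⟨r, hr⟩ := hf
  exact ⟨_, hr.inv⟩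

theorem HasV.one : HasV A (1 : FN N) 1 := ⟨_, RedS.one⟩

theorem HasV.pow {f : FN N} {c : Kbar} (hf : HasV A f c) (m : ℕ) : HasV A (f ^ m) (c ^ m) := by
  obtain ⟨r, hr⟩ := hf
  exact ⟨_, hr.pow m⟩

theorem HasV.zpow {f : FN N} {c : Kbar} (hf : HasV A f c) (m : ℤ) : HasV A (f ^ m) (c ^ m) := by
  cases m with
  | ofNat m => simpa using hf.pow m
  | negSucc m =>
    rw [zpow_negSucc, zpow_negSucc]
    exact (hf.pow (m + 1)).inv

theorem HasV.const {c : Kbar} (hc : c ≠ 0) : HasV A (algebraMap Kbar (FN N) c) c := by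
  refine ⟨1, ?_⟩
  rw [RedField.coe_algebraMap]
  exact RedS.const hc

/-- the constant is unique up to a unit of `A`. -/
theorem HasV.val_eq {f : FN N} {c d : Kbar} (hc : HasV A f c) (hd : HasV A f d) :
    A.valuation c = A.valuation d := by
  obtain ⟨r, hr⟩ := hc
  obtain ⟨s, hs⟩ := hd
  obtain ⟨a, ha, -⟩ := hr.unique hs
  have h1 : A.valuation ((a : A) : Kbar) = 1 := (A.valuation_eq_one_iff (a : A)).1 a.isUnit
  rw [ha, map_mul, h1, one_mul]

/-- change of the constant. -/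
theorem HasV.congr {f : FN N} {c d : Kbar} (hc : HasV A f c) (hd0 : d ≠ 0)
    (h : A.valuation c = A.valuation d) : HasV A f d := by
  obtain ⟨r, hr⟩ := hc
  have hc0 : c ≠ 0 := hr.1
  have hv : A.valuation (d / c) = 1 := by
    rw [map_div₀, h, div_self ((map_ne_zero _).2 hd0)]
  have hmem : d / c ∈ A := (A.valuation_le_one_iff _).1 hv.le
  have hu : IsUnit (⟨d / c, hmem⟩ : A) := (A.valuation_eq_one_iff _).2 hv
  obtain ⟨a, ha⟩ := hu
  have h2 := hr.rescale a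
  rw [ha] at h2
  have e : ((⟨d / c, hmem⟩ : A) : Kbar) * c = d := div_mul_cancel₀ d hc0
  rw [e] at h2
  exact ⟨_, h2⟩

variable {q : ℕ}

theorem exists_hasV (hq : q.Prime) (hA : A.LiesOverPrime q) (f : FN N) (hf : f ≠ 0) :
    ∃ c, HasV A f c := by
  obtain ⟨c, r, h⟩ := exists_redS hq hA f hf
  exact ⟨c, r, h⟩

/-- `v(T_ℓ f) = (ℓ + 1) v(f)`. -/
theorem HasV.hecke (hq : q.Prime) (hA : A.LiesOverPrime q) {ℓ : ℕ} [NeZero ℓ] (H : HeckeOp N ℓ)
    {f : FN N} {c : Kbar} (hf : HasV A f c) : HasV A (H.T f) (c ^ (ℓ + 1)) := by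
  obtain ⟨r, hr⟩ := hf
  have hℓ : ℓ ≠ 0 := NeZero.ne ℓ
  have : NeZero (ℓ * ℓ) := ⟨mul_ne_zero hℓ hℓ⟩
  have h2 := hr.map_qExpand (ℓ * ℓ)
  have h3 : ∀ b ∈ Finset.range ℓ, ∃ s, RedS A (twist (zetaK ℓ ^ b) (f : LaurentSeries Kbar)) c s := by
    intro b _
    have hz : (zetaK ℓ ^ b) ^ ℓ = 1 := by
      rw [← pow_mul, mul_comm, pow_mul, (isPrimitiveRoot_zetaK ℓ).pow_eq_one, one_pow]
    obtain ⟨z, hz'⟩ := exists_unit_of_pow_eq_one A (zetaK ℓ ^ b) ℓ hℓ hz
    exact ⟨_, hr.map_twist _ z hz'⟩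
  choose! s hs using h3
  have h4 := RedS.prod (Finset.range ℓ) hs
  have h5 := h2.mul h4
  rw [← H.qExpand_T f, Finset.prod_const, Finset.card_range] at h5
  have hT0 : H.T f ≠ 0 := by
    intro h0
    apply h5.ne_zero
    rw [h0]
    exact map_zero _
  obtain ⟨c', r', h'⟩ := exists_redS hq hA (H.T f) hT0
  obtain ⟨a, ha, -⟩ := h5.unique (h'.map_qExpand ℓ)
  have h6 := h'.rescale a
  rw [← ha] at h6
  rw [pow_succ']
  exact ⟨_, h6⟩

/-- `T_ℓ - a` on functions. -/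
def tau {ℓ : ℕ} [NeZero ℓ] (H : HeckeOp N ℓ) (a : ℤ) (f : FN N) : FN N := H.T f * (f ^ a)⁻¹

section Tau

variable {ℓ : ℕ} [NeZero ℓ] (H : HeckeOp N ℓ) (a : ℤ)

theorem HasV.tau (hq : q.Prime) (hA : A.LiesOverPrime q) {f : FN N} {c : Kbar}
    (hf : HasV A f c) : HasV A (tau H a f) (c ^ ((ℓ : ℤ) + 1 - a)) := by
  have h := (hf.hecke hq hA H).mul (hf.zpow a).inv
  have hc : c ≠ 0 := hf.const_ne_zero
  have e : c ^ (ℓ + 1) * (c ^ a)⁻¹ = c ^ ((ℓ : ℤ) + 1 - a) := by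
    rw [zpow_sub₀ hc, div_eq_mul_inv]
    congr 1
    exact_mod_cast (zpow_natCast c (ℓ + 1)).symm
  rw [e] at h
  exact h

theorem HasV.tau_iterate (hq : q.Prime) (hA : A.LiesOverPrime q) {f : FN N} {c : Kbar}
    (hf : HasV A f c) (k : ℕ) :
    HasV A ((Vert.tau H a)^[k] f) (c ^ (((ℓ : ℤ) + 1 - a) ^ k)) := by
  induction k with
  | zero => simpa using hf
  | succ k ih =>
    rw [Function.iterate_succ_apply', pow_succ, zpow_mul]
    exact ih.tau H a hq hA

theorem galF_tau (σ : GQ) (f : FN N) : galF N σ (tau H a f) = tau H a (galF N σ f) := by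
  unfold tau
  rw [map_mul, map_inv₀, map_zpow₀, H.galF_T]

theorem galF_tau_iterate (σ : GQ) (f : FN N) (k : ℕ) :
    galF N σ ((tau H a)^[k] f) = (tau H a)^[k] (galF N σ f) := by
  induction k with
  | zero => rfl
  | succ k ih => rw [Function.iterate_succ_apply', Function.iterate_succ_apply', galF_tau, ih]

theorem tau_mul (f g : FN N) : tau H a (f * g) = tau H a f * tau H a g := by
  unfold tau
  rw [map_mul, mul_zpow, mul_inv]
  ring

theorem tau_iterate_mul (f g : FN N) (k : ℕ) :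
    (tau H a)^[k] (f * g) = (tau H a)^[k] f * (tau H a)^[k] g := by
  induction k with
  | zero => rfl
  | succ k ih => simp only [Function.iterate_succ_apply', ih, tau_mul]

theorem tau_pow (f : FN N) (n : ℕ) : tau H a (f ^ n) = tau H a f ^ n := by
  unfold tau
  rw [map_pow, mul_pow, inv_pow, ← zpow_natCast (f ^ a) n, ← zpow_mul, ← zpow_natCast f n,
    ← zpow_mul, mul_comm (n : ℤ) a]

theorem tau_iterate_pow (f : FN N) (n k : ℕ) :
    (tau H a)^[k] (f ^ n) = ((tau H a)^[k] f) ^ n := by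
  induction k with
  | zero => rfl
  | succ k ih => simp only [Function.iterate_succ_apply', ih, tau_pow]

theorem IsKum.tau {n : ℕ} {f : FN N} (hf : IsKum N n f) : IsKum N n (tau H a f) := by
  unfold Vert.tau
  refine (H.isKum n f hf).mul (IsKum.inv ?_)
  cases a with
  | ofNat m => simpa using hf.pow m
  | negSucc m =>
    rw [zpow_negSucc]
    exact (hf.pow (m + 1)).inv

end Tau

end Fermat.Agent.S43.E0.Vert

end
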