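/-
Row 37 (S43), block E0, sub-block VERT (helper226).  THE VERTICAL ORDERS, part 2: the dictionary between
the two discrete valuation rings `VV (A0 A) hc 0`, `VV (A0 A) hc 1` of `FK (K0 A) (M * q)` (inertia field)
and the Gauss normalisation `HasV` over `ℚ̄`.
-/
import Fermat.Agent.S43.E0.Vert.Basic
import Fermat.Agent.S44.X.Model.GaussFN
import Fermat.Agent.BAD.Bridge.BaseHyp
import Fermat.Agent.BAD.Bridge.Defs
import Fermat.Agent.BAD.LevelQ.Mod.Sep
import Fermat.Agent.Lib.InertiaField.Unram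

set_option autoImplicit false

noncomputable section

namespace Fermat.Agent.S43.E0.Vert

open ModularCurve AlgebraicCurve Fermat.Agent.S24 Fermat.Agent.S24.B Fermat.Agent.GAL
  Fermat.Agent.GAL.E Fermat.Agent.C1 Fermat.Agent.Lib.InertiaField Fermat.Agent.BAD.Bridge
  Fermat.Agent.BAD.LevelQ.Mod Fermat.Agent.S44.X.Model Fermat.Agent.S28.Export
open Fermat.Agent.S18 (IsUnif)

variable {A : ValuationSubring Kbar}

/-- general: valuation one from the two memberships. -/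
theorem val_eq_one_of_mem {F : Type*} [Field F] (V : ValuationSubring F) {z : F} (hz : z ≠ 0)
    (h : z ∈ V) (h' : z⁻¹ ∈ V) : V.valuation z = 1 := by
  have h1 := (V.valuation_le_one_iff z).2 h
  have h2 := (V.valuation_le_one_iff z⁻¹).2 h'
  rw [map_inv₀] at h2
  have hv : V.valuation z ≠ 0 := (map_ne_zero _).2 hz
  exact le_antisymm h1 ((inv_le_one₀ (zero_lt_iff.2 hv)).1 h2)

theorem mem_of_val_eq_one {F : Type*} [Field F] (V : ValuationSubring F) {z : F}
    (h : V.valuation z = 1) : z ∈ V ∧ z⁻¹ ∈ V := by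
  refine ⟨(V.valuation_le_one_iff z).1 h.le, (V.valuation_le_one_iff z⁻¹).1 ?_⟩
  rw [map_inv₀, h, inv_one]

/-- the order at a discrete valuation ring. -/
theorem exists_ord {F : Type*} [Field F] {V : ValuationSubring F} {ϖ : F} (hU : IsUnif V ϖ) {y : F}
    (hy : y ≠ 0) : ∃ i : ℤ, V.valuation y = V.valuation ϖ ^ i := by
  obtain ⟨i, h1, h2⟩ := hU.exists_zpow y hy
  have hϖ : ϖ ≠ 0 := by
    rintro rfl
    exact hU.inv_notMem (by rw [inv_zero]; exact zero_mem _)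
  have h0 : y / ϖ ^ i ≠ 0 := div_ne_zero hy (zpow_ne_zero _ hϖ)
  have h3 := val_eq_one_of_mem V h0 h1 h2
  refine ⟨i, ?_⟩
  rw [map_div₀, map_zpow₀] at h3
  exact (div_eq_one_iff_eq (zpow_ne_zero _ ((map_ne_zero _).2 hϖ))).1 h3

section Unit

variable [IsDiscreteValuationRing (A0 A)] {L : ℕ}

/-- a unit of the Gauss valuation ring over the inertia field is a Gauss unit over `ℚ̄`. -/
theorem hasV_one_of_unit (z : FK (K0 A) L) (hz : (Og (A0 A) L).valuation z = 1) :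
    HasV A (bc A L z) 1 := by
  have hφ : A.comap (algebraMap (K0 A) Kbar) = A0 A := rfl
  have hz' : z ∈ Og (A0 A) L := ((Og (A0 A) L).valuation_le_one_iff z).1 hz.le
  have h := red_rhoS hφ (N := L) ⟨z, hz'⟩
  have hne : rhoS hφ L ⟨z, hz'⟩ ≠ 0 := by
    intro h0
    have h1 := (rhoS_eq_zero_iff hφ (N := L) ⟨z, hz'⟩).1 h0
    exact absurd hz (ne_of_lt h1)
  obtain ⟨G₁, G₂, h2, hf, hg⟩ := h
  refine ⟨rhoS hφ L ⟨z, hz'⟩, one_ne_zero, G₁, G₂, ?_, h2, ?_, hg⟩
  · rw [← hg]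
    exact mul_ne_zero hne h2
  · rw [map_one, one_mul]
    exact hf

end Unit

variable {M q : ℕ} [NeZero M] [NeZero q]

theorem bc_natCast (L m : ℕ) : bc A L (m : FK (K0 A) L) = algebraMap Kbar (FN L) (m : Kbar) := by
  rw [map_natCast, map_natCast]

section Two

variable [IsDiscreteValuationRing (A0 A)]

/-- the order at `v_∞`. -/
theorem hasV_zero (hq : q.Prime) (hc : M.Coprime q) {z : FK (K0 A) (M * q)} {i : ℤ}
    (h : (VV (A0 A) hc 0).valuation z =
      (VV (A0 A) hc 0).valuation (q : FK (K0 A) (M * q)) ^ i) :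
    HasV A (bc A (M * q) z) ((q : Kbar) ^ i) := by
  have hq0 : (q : FK (K0 A) (M * q)) ≠ 0 := by exact_mod_cast hq.ne_zero
  have hq0' : (q : Kbar) ≠ 0 := by exact_mod_cast hq.ne_zero
  have h1 : (Og (A0 A) (M * q)).valuation (z * ((q : FK (K0 A) (M * q)) ^ i)⁻¹) = 1 := by
    have h' : (Og (A0 A) (M * q)).valuation z =
      (Og (A0 A) (M * q)).valuation (q : FK (K0 A) (M * q)) ^ i := h
    rw [map_mul, map_inv₀, map_zpow₀, h']
    exact mul_inv_cancel₀ (zpow_ne_zero _ ((map_ne_zero _).2 hq0))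
  have h2 := (hasV_one_of_unit _ h1).mul (HasV.const (A := A) (N := M * q) (zpow_ne_zero i hq0'))
  rw [one_mul, map_zpow₀, ← bc_natCast (A := A), ← map_zpow₀, ← map_mul, mul_assoc,
    inv_mul_cancel₀ (zpow_ne_zero _ hq0), mul_one] at h2
  exact h2

/-- the order at `v_0 = v_∞ ∘ w`. -/
theorem hasV_one (hq : q.Prime) (hc : M.Coprime q) (D : ALData M q) {z : FK (K0 A) (M * q)} {j : ℤ}
    (hz : z ≠ 0)
    (h : (VV (A0 A) hc 1).valuation z =
      (VV (A0 A) hc 1).valuation (q : FK (K0 A) (M * q)) ^ j) :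
    HasV A (D.w (bc A (M * q) z)) ((q : Kbar) ^ j) := by
  have hq0 : (q : FK (K0 A) (M * q)) ≠ 0 := by exact_mod_cast hq.ne_zero
  have hq0' : (q : Kbar) ≠ 0 := by exact_mod_cast hq.ne_zero
  set z' := z * ((q : FK (K0 A) (M * q)) ^ j)⁻¹ with hz'
  have hz'0 : z' ≠ 0 := mul_ne_zero hz (inv_ne_zero (zpow_ne_zero _ hq0))
  have h1 : (VV (A0 A) hc 1).valuation z' = 1 := by
    rw [hz', map_mul, map_inv₀, map_zpow₀, h]
    exact mul_inv_cancel₀ (zpow_ne_zero _ ((map_ne_zero _).2 hq0))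
  obtain ⟨m1, m2⟩ := mem_of_val_eq_one _ h1
  rw [mem_VV_one] at m1 m2
  rw [map_inv₀] at m2
  have hw0 : ww (K0 A) hc z' ≠ 0 := (map_ne_zero _).2 hz'0
  have h2 : (Og (A0 A) (M * q)).valuation (ww (K0 A) hc z') = 1 :=
    val_eq_one_of_mem _ hw0 m1 m2
  have h3 := hasV_one_of_unit _ h2
  have e1 : bc A (M * q) (ww (K0 A) hc z') = D.w (bc A (M * q) z') := bcX_ww hq hc D z'
  rw [e1] at h3
  have h4 := h3.mul (HasV.const (A := A) (N := M * q) (zpow_ne_zero j hq0'))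
  have e2 : D.w (bc A (M * q) z') * algebraMap Kbar (FN (M * q)) ((q : Kbar) ^ j) =
      D.w (bc A (M * q) z) := by
    rw [← D.w.commutes ((q : Kbar) ^ j), ← map_mul, map_zpow₀, ← bc_natCast (A := A), ← map_zpow₀,
      ← map_mul, hz', mul_assoc, inv_mul_cancel₀ (zpow_ne_zero _ hq0), mul_one]
  rw [e2, one_mul] at h4
  exact h4

end Two

end Fermat.Agent.S43.E0.Vert

end
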