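/-
Row 37 (S43), block E0, node UNITREP (helper226).  (D) + (V) + (N) in one statement.

Level `M q`, `A ∣ q`, `ℓ ∤ M q`, `n` any exponent, `a : ℤ` with `ℓ + 1 - a` prime to `n`
("`T_ℓ - a` is not Eisenstein mod `n`").

* `exists_model_tau` : `T_ℓ u₀ / u₀ ^ a` of a function over the inertia field is over the inertia field;
* `unit_tau`         : `T_ℓ u₀ / u₀ ^ (ℓ + 1)` is a unit at both vertical valuations `VV 0`, `VV 1`
                       (remark of helper73);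
* `exists_unit_rep_of_model`, `exists_unit_rep` : an `I_A`-fixed Kummer class killed by `(T_ℓ - a) ^ k` has a
  representative over the inertia field which is a unit at both vertical valuations.
-/
import Fermat.Agent.S43.E0.Vert.Ord
import Fermat.Agent.S44.X.Cover.TW.Main
import Fermat.Agent.BAD.Bridge.FixRep
import Fermat.Agent.S36.Desc.Model
import Fermat.Agent.C1.Mod.Main

set_option autoImplicit false

noncomputable section

namespace Fermat.Agent.S43.E0.Vert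

open ModularCurve AlgebraicCurve Fermat.Agent.S24 Fermat.Agent.S24.B Fermat.Agent.GAL
  Fermat.Agent.GAL.E Fermat.Agent.C1 Fermat.Agent.Lib.InertiaField Fermat.Agent.BAD.Bridge
  Fermat.Agent.BAD.LevelQ.Mod Fermat.Agent.S44.X.Model Fermat.Agent.S28.Export
open Fermat.Agent.S18 (IsUnif)

variable {A : ValuationSubring Kbar}

/-- functions over the inertia field are fixed by inertia. -/
theorem galF_bc (N : ℕ) (u : FK (K0 A) N) (σ : E.GQ) (hσ : σ ∈ A.inertiaSubgroupIn ℚ) :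
    galF N σ (bc A N u) = bc A N u :=
  S36.Desc.galF_eq_of_K0_model N A (bc A N u) (u : LaurentSeries (K0 A)) rfl σ hσ

/-- a function fixed by inertia is defined over the inertia field. -/
theorem exists_bc_eq (N : ℕ) (x : FN N) (hx : ∀ σ ∈ A.inertiaSubgroupIn ℚ, galF N σ x = x) :
    ∃ y : FK (K0 A) N, bc A N y = x := by
  obtain ⟨y, hy, hyx⟩ := S36.Desc.exists_K0_model N A x hx
  exact ⟨⟨y, hy⟩, Subtype.ext hyx⟩

theorem exists_model_tau {N ℓ : ℕ} [NeZero ℓ] (H : HeckeOp N ℓ) (a : ℤ) (u : FK (K0 A) N) :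
    ∃ y : FK (K0 A) N, bc A N y = tau H a (bc A N u) := by
  refine exists_bc_eq N _ fun σ hσ => ?_
  rw [galF_tau, galF_bc N u σ hσ]

theorem bc_ne_zero {N : ℕ} {u : FK (K0 A) N} (hu : u ≠ 0) : bc A N u ≠ 0 :=
  (map_ne_zero _).2 hu

theorem ne_zero_of_bc {N : ℕ} {u : FK (K0 A) N} (hu : bc A N u ≠ 0) : u ≠ 0 :=
  (map_ne_zero (bc A N)).1 hu

variable {M q : ℕ} [NeZero M] [NeZero q]

theorem val_q_lt_one (hA : A.LiesOverPrime q) : A.valuation (q : Kbar) < 1 :=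
  (ValuationSubring.mem_nonunits_iff A).1 hA

theorem zpow_val_q (hq : q.Prime) (hA : A.LiesOverPrime q) {i : ℤ}
    (h : A.valuation ((q : Kbar) ^ i) = 1) : i = 0 := by
  have hq0 : (q : Kbar) ≠ 0 := by exact_mod_cast hq.ne_zero
  have h0 : 0 < A.valuation (q : Kbar) := zero_lt_iff.2 ((map_ne_zero _).2 hq0)
  have h1 := val_q_lt_one hA
  rw [map_zpow₀] at h
  by_contra hi
  rcases lt_or_gt_of_ne hi with hi | hi
  · have := one_lt_zpow_of_neg₀ h0 h1 hi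
    exact this.ne' h
  · have := zpow_lt_one₀ h0 h1 hi
    exact this.ne h

section Two

variable [IsDiscreteValuationRing (A0 A)]

/-- Gauss unit over `ℚ̄` ⇒ unit at `VV 0`. -/
theorem val_zero_eq_one (hq : q.Prime) (hc : M.Coprime q) (hA : A.LiesOverPrime q)
    {z : FK (K0 A) (M * q)} (h : HasV A (bc A (M * q) z) 1) :
    (VV (A0 A) hc 0).valuation z = 1 := by
  have hz : z ≠ 0 := ne_zero_of_bc h.ne_zero
  have hU := isUnif_VV (isUnif_A0 A q hq hA) hc 0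
  rw [map_natCast] at hU
  obtain ⟨i, hi⟩ := exists_ord hU hz
  have h1 := (hasV_zero hq hc hi).val_eq h
  rw [map_one] at h1
  rw [hi, zpow_val_q hq hA h1, zpow_zero]

/-- `w`-Gauss unit over `ℚ̄` ⇒ unit at `VV 1`. -/
theorem val_one_eq_one (hq : q.Prime) (hc : M.Coprime q) (hA : A.LiesOverPrime q) (D : ALData M q)
    {z : FK (K0 A) (M * q)} (h : HasV A (D.w (bc A (M * q) z)) 1) :
    (VV (A0 A) hc 1).valuation z = 1 := by
  have hz : z ≠ 0 := by
    rintro rfl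
    exact h.ne_zero (by rw [map_zero, map_zero])
  have hU := isUnif_VV (isUnif_A0 A q hq hA) hc 1
  rw [map_natCast] at hU
  obtain ⟨i, hi⟩ := exists_ord hU hz
  have h1 := (hasV_one hq hc D hz hi).val_eq h
  rw [map_one] at h1
  rw [hi, zpow_val_q hq hA h1, zpow_zero]

variable {ℓ : ℕ} [NeZero ℓ]

theorem w_tau (hq : q.Prime) (hc : M.Coprime q) (hl : ℓ.Prime) (hlN : ¬ ℓ ∣ M * q)
    (D : ALData M q) (H : HeckeOp (M * q) ℓ) (a : ℤ) (f : FN (M * q)) :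
    D.w (tau H a f) = tau H a (D.w f) := by
  have hqM : ¬ q ∣ M := fun h => hq.one_lt.ne' (Nat.eq_one_of_dvd_coprimes hc h dvd_rfl)
  unfold tau
  rw [map_mul, map_inv₀, map_zpow₀, S44.X.Cover.w_T hq hqM hl hlN D H f]

/-- **`T_ℓ u / u ^ (ℓ + 1)` has vertical orders `(0, 0)`.** -/
theorem unit_tau (hq : q.Prime) (hc : M.Coprime q) (hA : A.LiesOverPrime q) (hl : ℓ.Prime)
    (hlN : ¬ ℓ ∣ M * q) (H : HeckeOp (M * q) ℓ) {u y : FK (K0 A) (M * q)} (hu : u ≠ 0)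
    (hy : bc A (M * q) y = tau H ((ℓ : ℤ) + 1) (bc A (M * q) u)) (c : Fin 2) :
    (VV (A0 A) hc c).valuation y = 1 := by
  have hqM : ¬ q ∣ M := fun h => hq.one_lt.ne' (Nat.eq_one_of_dvd_coprimes hc h dvd_rfl)
  obtain ⟨D⟩ := nonempty_alData M q hq hqM
  have hd : c = 0 ∨ c = 1 := by omega
  rcases hd with rfl | rfl
  · obtain ⟨d, hd⟩ := exists_hasV hq hA (bc A (M * q) u) (bc_ne_zero hu)
    have h := hd.tau H ((ℓ : ℤ) + 1) hq hA
    rw [sub_self, zpow_zero, ← hy] at h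
    exact val_zero_eq_one hq hc hA h
  · obtain ⟨d, hd⟩ := exists_hasV hq hA (D.w (bc A (M * q) u))
      ((map_ne_zero _).2 (bc_ne_zero hu))
    have h := hd.tau H ((ℓ : ℤ) + 1) hq hA
    rw [sub_self, zpow_zero, ← w_tau hq hc hl hlN D H, ← hy] at h
    exact val_one_eq_one hq hc hA D h

/-- the inductive form of UNITREP. -/
theorem exists_unit_rep_of_model (hq : q.Prime) (hc : M.Coprime q) (hA : A.LiesOverPrime q)
    (hl : ℓ.Prime) (hlN : ¬ ℓ ∣ M * q) (H : HeckeOp (M * q) ℓ) (a : ℤ) {n : ℕ}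
    (hn : n ≠ 0) (hcop : IsCoprime ((ℓ : ℤ) + 1 - a) (n : ℤ)) (k : ℕ) :
    ∀ u₀ : FK (K0 A) (M * q), u₀ ≠ 0 →
      (∃ h : FN (M * q), (tau H a)^[k] (bc A (M * q) u₀) = h ^ n) →
      ∃ (u : FK (K0 A) (M * q)) (g : FN (M * q)), g ≠ 0 ∧
        bc A (M * q) u₀ = bc A (M * q) u * g ^ n ∧ ∀ c, (VV (A0 A) hc c).valuation u = 1 := by
  induction k with
  | zero =>
    rintro u₀ hu₀ ⟨h, hh⟩
    refine ⟨1, h, ?_, ?_, fun c => map_one _⟩
    · rintro rfl
      rw [zero_pow hn] at hh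
      exact bc_ne_zero hu₀ hh
    · rw [map_one, one_mul]
      exact hh
  | succ k ih =>
    rintro u₀ hu₀ ⟨h, hh⟩
    obtain ⟨y, hy⟩ := exists_model_tau H a u₀
    obtain ⟨y', hy'⟩ := exists_model_tau H ((ℓ : ℤ) + 1) u₀
    have hf : bc A (M * q) u₀ ≠ 0 := bc_ne_zero hu₀
    obtain ⟨d, hd⟩ := exists_hasV hq hA _ hf
    have hy0 : y ≠ 0 := ne_zero_of_bc (by rw [hy]; exact (hd.tau H a hq hA).ne_zero)
    have hy'0 : bc A (M * q) y' ≠ 0 := by rw [hy']; exact (hd.tau H _ hq hA).ne_zero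
    rw [Function.iterate_succ_apply, ← hy] at hh
    obtain ⟨u₁, g₁, hg₁, h1, h2⟩ := ih y hy0 ⟨h, hh⟩
    have h3 := unit_tau hq hc hA hl hlN H hu₀ hy'
    obtain ⟨r, s, hrs⟩ := hcop
    have key : bc A (M * q) u₀ ^ ((ℓ : ℤ) + 1 - a) = bc A (M * q) (u₁ / y') * g₁ ^ n := by
      rw [map_div₀, div_mul_eq_mul_div, ← h1, hy, hy', eq_div_iff (by rw [← hy']; exact hy'0)]
      unfold tau
      rw [zpow_sub₀ hf]
      have e1 : bc A (M * q) u₀ ^ ((ℓ : ℤ) + 1) ≠ 0 := zpow_ne_zero _ hf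
      have e2 : bc A (M * q) u₀ ^ a ≠ 0 := zpow_ne_zero _ hf
      field_simp
    refine ⟨(u₁ / y') ^ r, g₁ ^ r * bc A (M * q) u₀ ^ s, ?_, ?_, fun c => ?_⟩
    · exact mul_ne_zero (zpow_ne_zero _ hg₁) (zpow_ne_zero _ hf)
    · have e : bc A (M * q) u₀ = (bc A (M * q) u₀ ^ ((ℓ : ℤ) + 1 - a)) ^ r *
          (bc A (M * q) u₀ ^ s) ^ n := by
        rw [← zpow_natCast (bc A (M * q) u₀ ^ s) n, ← zpow_mul, ← zpow_mul, ← zpow_add₀ hf,
          mul_comm _ r, hrs, zpow_one]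
      rw [key] at e
      rw [map_zpow₀, mul_pow, ← mul_assoc]
      rw [mul_zpow, ← zpow_natCast g₁ n, ← zpow_mul, mul_comm (n : ℤ) r, zpow_mul, zpow_natCast] at e
      exact e
    · rw [map_zpow₀, map_div₀, h2 c, h3 c, div_one, one_zpow]

/-- **UNITREP = (D) + (V) + (N), function form.**  A Kummer function `U` of level `M q` whose class mod `n`-th
powers is fixed by the inertia group of `A ∣ q` and is killed by `(T_ℓ - a) ^ k`, `ℓ + 1 - a` prime to `n`, is,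
up to an `n`-th power, defined over the inertia field and a unit at both vertical valuations. -/
theorem exists_unit_rep (hq : q.Prime) (hc : M.Coprime q) (hA : A.LiesOverPrime q)
    (hl : ℓ.Prime) (hlN : ¬ ℓ ∣ M * q) (H : HeckeOp (M * q) ℓ) (a : ℤ) {n : ℕ}
    (hn : n ≠ 0) (hcop : IsCoprime ((ℓ : ℤ) + 1 - a) (n : ℤ)) (k : ℕ)
    (U : FN (M * q)) (hU0 : U ≠ 0) (hU : IsKum (M * q) n U)
    (hfix : ∀ σ ∈ A.inertiaSubgroupIn ℚ, ∃ h : FN (M * q), galF (M * q) σ U = U * h ^ n)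
    (hk : ∃ h : FN (M * q), (tau H a)^[k] U = h ^ n) :
    ∃ (u : FK (K0 A) (M * q)) (g : FN (M * q)), g ≠ 0 ∧
      U = bc A (M * q) u * g ^ n ∧ ∀ c, (VV (A0 A) hc c).valuation u = 1 := by
  obtain ⟨u₀, h₀, hu₀, hh₀, e₀⟩ := exists_fixed_rep A (M * q) n hn U hU0 hU hfix
  obtain ⟨h, hh⟩ := hk
  have h1 : ∃ h : FN (M * q), (tau H a)^[k] (bc A (M * q) u₀) = h ^ n := by
    rw [e₀, tau_iterate_mul, tau_iterate_pow] at hh
    have h2 : (tau H a)^[k] h₀ ≠ 0 := by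
      obtain ⟨d, hd⟩ := exists_hasV hq hA _ hh₀
      exact (hd.tau_iterate H a hq hA k).ne_zero
    refine ⟨h / (tau H a)^[k] h₀, ?_⟩
    rw [div_pow, ← hh, mul_div_assoc, div_self (pow_ne_zero _ h2), mul_one]
  obtain ⟨u, g, hg, e, hv⟩ := exists_unit_rep_of_model hq hc hA hl hlN H a hn hcop k u₀ hu₀ h1
  refine ⟨u, g * h₀, mul_ne_zero hg hh₀, ?_, hv⟩
  rw [e₀, e, mul_pow, mul_assoc]

end Two

end Fermat.Agent.S43.E0.Vert

end
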