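/-
S43 / E0 / UNITREP, node (D) (helper216): descent of the `I_A`-fixed classes of the Kummer model
`W N n` to the inertia field `K0 A`.

The mathematical content is `S36.Desc.exists_K0_rep` (landed, frozen).  This file only restates it
in the two languages used by the consumers: `bcX` (S44/X/Cover) and `bcK` (S44/Depth/Inst).
-/
import Fermat.Agent.S36.Desc.Model
import Fermat.Agent.S44.X.Cover.Defs
import Fermat.Agent.S44.Depth.Inst.Defs

set_option autoImplicit false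

noncomputable section

namespace Fermat.Agent.S43.E0.Vert

open ModularCurve AlgebraicCurve Fermat.Agent.S24 Fermat.Agent.GAL Fermat.Agent.GAL.E
  Fermat.Agent.Lib.InertiaField Fermat.Agent.BAD.Bridge

/-- the two base change maps are the same map -/
theorem bcX_eq_bcK (K : Type) [Field K] [Algebra ℚ K] [Algebra K Kbar] (N : ℕ) :
    S44.X.Cover.bcX K N = S44.Depth.Inst.bcK K N := rfl

/-- **(D), `bcX` form.**  A class of `W N n` fixed by the inertia group of `A` is the class of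
`bcX u0` with `u0 ∈ FK (K0 A) N`. -/
theorem exists_K0_rep_bcX (N n : ℕ) (hn : 0 < n) (A : ValuationSubring Kbar) (x : W N n)
    (hx : ∀ σ ∈ A.inertiaSubgroupIn ℚ, rho N n σ x = x) :
    ∃ (u0 : FK (K0 A) N) (h0 : S44.X.Cover.bcX (K0 A) N u0 ≠ 0)
      (hu : Units.mk0 (S44.X.Cover.bcX (K0 A) N u0) h0 ∈ kum N n),
      cls ⟨Units.mk0 _ h0, hu⟩ = x := by
  obtain ⟨u, y, hux, hy⟩ := S36.Desc.exists_K0_rep N n hn A x hx
  have h0 : S44.X.Cover.bcX (K0 A) N y ≠ 0 := by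
    have : S44.X.Cover.bcX (K0 A) N y = ((u : (FN N)ˣ) : FN N) := hy
    rw [this]
    exact Units.ne_zero _
  have he : Units.mk0 (S44.X.Cover.bcX (K0 A) N y) h0 = (u : (FN N)ˣ) := Units.ext hy
  have hu : Units.mk0 (S44.X.Cover.bcX (K0 A) N y) h0 ∈ kum N n := by
    rw [he]
    exact u.2
  refine ⟨y, h0, hu, ?_⟩
  rw [← hux]
  exact congrArg cls (Subtype.ext he)

/-- `u0 ≠ 0` for the representative -/
theorem ne_zero_of_bcX_ne_zero {K : Type} [Field K] [Algebra ℚ K] [Algebra K Kbar] {N : ℕ}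
    {u0 : FK K N} (h0 : S44.X.Cover.bcX K N u0 ≠ 0) : u0 ≠ 0 := by
  rintro rfl
  exact h0 (map_zero _)

/-- **(D), `bcK` form.** -/
theorem exists_K0_rep_bcK (N n : ℕ) (hn : 0 < n) (A : ValuationSubring Kbar) (x : W N n)
    (hx : ∀ σ ∈ A.inertiaSubgroupIn ℚ, rho N n σ x = x) :
    ∃ (u0 : FK (K0 A) N) (h0 : S44.Depth.Inst.bcK (K0 A) N u0 ≠ 0)
      (hu : Units.mk0 (S44.Depth.Inst.bcK (K0 A) N u0) h0 ∈ kum N n),
      cls ⟨Units.mk0 _ h0, hu⟩ = x :=
  exists_K0_rep_bcX N n hn A x hx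

/-- **(D), `IsKum` form.** -/
theorem exists_K0_rep_isKum (N n : ℕ) (hn : 0 < n) (A : ValuationSubring Kbar) (x : W N n)
    (hx : ∀ σ ∈ A.inertiaSubgroupIn ℚ, rho N n σ x = x) :
    ∃ (u0 : FK (K0 A) N) (_ : u0 ≠ 0) (u : kum N n),
      ((u : (FN N)ˣ) : FN N) = S44.X.Cover.bcX (K0 A) N u0 ∧
        IsKum N n (S44.X.Cover.bcX (K0 A) N u0) ∧ cls u = x := by
  obtain ⟨u0, h0, hu, hx'⟩ := exists_K0_rep_bcX N n hn A x hx
  exact ⟨u0, ne_zero_of_bcX_ne_zero h0, ⟨Units.mk0 _ h0, hu⟩, rfl, hu, hx'⟩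

/-- conversely: the class of a Kummer unit defined over `K0 A` is fixed by inertia -/
theorem rho_cls_eq_of_bcX (N n : ℕ) (A : ValuationSubring Kbar) (u : kum N n)
    (u0 : FK (K0 A) N) (hu : ((u : (FN N)ˣ) : FN N) = S44.X.Cover.bcX (K0 A) N u0)
    (σ : Kbar ≃ₐ[ℚ] Kbar) (hσ : σ ∈ A.inertiaSubgroupIn ℚ) : rho N n σ (cls u) = cls u := by
  have h := S36.Desc.galF_eq_of_K0_model N A ((u : (FN N)ˣ) : FN N) (u0 : LaurentSeries (K0 A))
    (by rw [hu]; rfl) σ hσ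
  rw [rho_cls]
  exact congrArg cls (Subtype.ext (Units.ext h))

end Fermat.Agent.S43.E0.Vert

end
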