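/-
Row 37 (S43), block E0, node UNITREP (helper226).  THE J-LANGUAGE FORM.

`x ∈ J₀(M q)[n]` fixed by the inertia group of `A ∣ q` and killed by `(T_ℓ - a) ^ k` (`ℓ ∤ M q`, `ℓ + 1 - a` prime
to `n`) has a representative `r : TorsRep n x` whose function is defined over the inertia field and is a unit at both
vertical valuations.
-/
import Fermat.Agent.S43.E0.Vert.Main
import Fermat.Agent.S15.LocN.Jac
import Fermat.Agent.S15.Defs
import Fermat.Agent.S37.HeckeInputs.Main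
import Fermat.Agent.GAL.E.Exists

set_option autoImplicit false

noncomputable section

namespace Fermat.Agent.S43.E0.Vert

open ModularCurve AlgebraicCurve Fermat.Agent.S24 Fermat.Agent.S24.B Fermat.Agent.GAL
  Fermat.Agent.GAL.E Fermat.Agent.C1 Fermat.Agent.Lib.InertiaField Fermat.Agent.BAD.Bridge
  Fermat.Agent.BAD.LevelQ.Mod Fermat.Agent.S27 Fermat.Agent.S19.Weil Fermat.Agent.S15
  Fermat.Agent.S15.LocN Fermat.Agent.S17.W
open Fermat.Agent.S37.HeckeInputs (heckeDiv heckeDiv_mem_degZero heckeDiv_principal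
  heckeOperatorAlong_mk)

variable {N : ℕ} [NeZero N] {n : ℕ}

theorem Tp_eq' {ℓ : ℕ} [NeZero ℓ] : Tp N ℓ = heckeOperatorAlong Kbar N ℓ := by
  unfold Tp
  exact dif_neg (NeZero.ne ℓ)

/-- `T_ℓ` on representatives. -/
def torsRepHecke {ℓ : ℕ} [NeZero ℓ] (hl : ℓ.Prime) (hlN : ¬ ℓ ∣ N) (H : HeckeOp N ℓ) {x : JZero N}
    (r : TorsRep n x) : TorsRep n (Tp N ℓ x) where
  D := heckeDiv N ℓ r.D
  f := H.T r.f
  deg := heckeDiv_mem_degZero N ℓ (D := r.D) r.deg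
  cls_eq := by
    have h1 : x = Pic0.mk ⟨r.D, r.deg⟩ := by rw [← cls_eq_mk r.deg, r.cls_eq]
    have h2 := heckeOperatorAlong_mk N ℓ ⟨r.D, r.deg⟩
    rw [cls_eq_mk (heckeDiv_mem_degZero N ℓ (D := r.D) r.deg), Tp_eq']
    conv_rhs => rw [h1]
    exact h2.symm
  div := by
    have h0 : H.T r.f ≠ 0 := by
      have h1 : IsUnit (H.T r.f) := (IsUnit.mk0 _ r.div.1).map H.T
      exact h1.ne_zero
    refine ⟨h0, fun v => ?_⟩
    rw [← map_zsmul, heckeDiv_principal N ℓ r.div.1 r.div.2 v, H.T_eq_heckeF hl hlN]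
    rfl

/-- integer multiples of representatives. -/
def torsRepZsmul {x : JZero N} (r : TorsRep n x) (a : ℤ) : TorsRep n (a • x) where
  D := a • r.D
  f := r.f ^ a
  deg := by rw [map_zsmul, r.deg, smul_zero]
  cls_eq := by
    have h1 : x = Pic0.mk ⟨r.D, r.deg⟩ := by rw [← cls_eq_mk r.deg, r.cls_eq]
    rw [cls_eq_mk (by rw [map_zsmul, r.deg, smul_zero])]
    conv_rhs => rw [h1]
    rfl
  div := by
    refine ⟨zpow_ne_zero _ r.div.1, fun v => ?_⟩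
    rw [Place.ord_zpow, ← r.div.2 v]
    simp only [Finsupp.smul_apply, smul_eq_mul]
    ring

/-- `T_ℓ - a` on representatives. -/
theorem exists_torsRep_tau {ℓ : ℕ} [NeZero ℓ] (hl : ℓ.Prime) (hlN : ¬ ℓ ∣ N) (H : HeckeOp N ℓ) (a : ℤ)
    {x : JZero N} (r : TorsRep n x) :
    ∃ r' : TorsRep n ((Tp N ℓ - (a : AddMonoid.End (JZero N))) x), r'.f = tau H a r.f := by
  have e : (Tp N ℓ - (a : AddMonoid.End (JZero N))) x = Tp N ℓ x + (-a) • x := by
    rw [neg_zsmul, ← sub_eq_add_neg, ← AddMonoid.End.intCast_apply]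
    rfl
  rw [e]
  refine ⟨(torsRepHecke hl hlN H r).add (torsRepZsmul r (-a)), ?_⟩
  show H.T r.f * r.f ^ (-a) = H.T r.f * (r.f ^ a)⁻¹
  rw [zpow_neg]

theorem exists_torsRep_tau_iterate {ℓ : ℕ} [NeZero ℓ] (hl : ℓ.Prime) (hlN : ¬ ℓ ∣ N) (H : HeckeOp N ℓ)
    (a : ℤ) {x : JZero N} (r : TorsRep n x) (k : ℕ) :
    ∃ r' : TorsRep n (((Tp N ℓ - (a : AddMonoid.End (JZero N))) ^ k) x),
      r'.f = (tau H a)^[k] r.f := by
  induction k with
  | zero => exact ⟨r, rfl⟩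
  | succ k ih =>
    obtain ⟨r₁, h₁⟩ := ih
    obtain ⟨r₂, h₂⟩ := exists_torsRep_tau hl hlN H a r₁
    rw [pow_succ']
    refine ⟨r₂, ?_⟩
    rw [h₂, h₁, Function.iterate_succ_apply']

/-- two representatives of the same class differ by an `n`-th power. -/
theorem torsRep_exists_eq_mul_pow (hn : 0 < n) {x : JZero N} (r r' : TorsRep n x) :
    ∃ h : FN N, r'.f = r.f * h ^ n := by
  obtain ⟨g, c, G, hc, -, -, e⟩ := r.exists_eq hn r'
  obtain ⟨d, hd⟩ := IsAlgClosed.exists_pow_nat_eq c hn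
  refine ⟨algebraMap Kbar (FN N) d * g, ?_⟩
  rw [e, mul_pow, ← map_pow, hd]
  ring

/-- a representative of the zero class is an `n`-th power. -/
theorem torsRep_exists_eq_pow (hn : 0 < n) {x : JZero N} (hx : x = 0) (r : TorsRep n x) :
    ∃ h : FN N, r.f = h ^ n := by
  subst hx
  let r₀ : TorsRep n (0 : JZero N) :=
    ⟨0, 1, map_zero _, cls_zero, one_ne_zero, fun v => by simp⟩
  obtain ⟨h, hh⟩ := torsRep_exists_eq_mul_pow hn r₀ r
  refine ⟨h, ?_⟩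
  rw [hh]
  exact one_mul _

variable {A : ValuationSubring Kbar} {M q : ℕ} [NeZero M] [NeZero q]
  [IsDiscreteValuationRing (A0 A)] {ℓ : ℕ} [NeZero ℓ]

/-- **UNITREP, J-language.** -/
theorem exists_unit_torsRep (hq : q.Prime) (hc : M.Coprime q) (hA : A.LiesOverPrime q)
    (hl : ℓ.Prime) (hlN : ¬ ℓ ∣ M * q) (a : ℤ) (hn : 0 < n)
    (hcop : IsCoprime ((ℓ : ℤ) + 1 - a) (n : ℤ)) (k : ℕ) (x : JZero (M * q))
    (hx : (n : ℤ) • x = 0) (hfix : ∀ σ ∈ A.inertiaSubgroupIn ℚ, σ • x = x)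
    (hk : ((Tp (M * q) ℓ - (a : AddMonoid.End (JZero (M * q)))) ^ k) x = 0) :
    ∃ (r : TorsRep n x) (u : FK (K0 A) (M * q)), r.f = bc A (M * q) u ∧
      ∀ c, (VV (A0 A) hc c).valuation u = 1 := by
  obtain ⟨r, -⟩ := exists_torsRep hx ∅
  have H : HeckeOp (M * q) ℓ := heckeOp (M * q) ℓ hl hlN
  obtain ⟨r', hr'⟩ := exists_torsRep_tau_iterate hl hlN H a r k
  obtain ⟨h, hh⟩ := torsRep_exists_eq_pow hn hk r'
  obtain ⟨u, g, hg, e, hv⟩ := exists_unit_rep hq hc hA hl hlN H a hn.ne' hcop k r.f r.div.1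
    (TorsRep.isKum r) (fun σ hσ => by
      have hσx : gal (M * q) σ • x = x := hfix σ hσ
      obtain ⟨r₂, hr₂⟩ : ∃ r₂ : TorsRep n x, r₂.f = galF (M * q) σ r.f := by
        have h1 : ∃ r₂ : TorsRep n (gal (M * q) σ • x), r₂.f = galF (M * q) σ r.f :=
          ⟨TorsRep.smul (gal (M * q) σ) r, rfl⟩
        rwa [hσx] at h1
      obtain ⟨h, hh⟩ := torsRep_exists_eq_mul_pow hn r r₂
      exact ⟨h, by rw [← hr₂, hh]⟩) ⟨h, by rw [← hr', hh]⟩
  obtain ⟨G, hG⟩ := exists_isDivOf (K := Kbar) g⁻¹ (inv_ne_zero hg)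
  refine ⟨r.move g⁻¹ G hG, u, ?_, hv⟩
  show g⁻¹ ^ n * r.f = _
  rw [e, inv_pow, mul_comm (bc A (M * q) u), inv_mul_cancel_left₀ (pow_ne_zero _ hg)]

/-- the same with `bcX`. -/
theorem exists_unit_torsRep_bcX (hq : q.Prime) (hc : M.Coprime q) (hA : A.LiesOverPrime q)
    (hl : ℓ.Prime) (hlN : ¬ ℓ ∣ M * q) (a : ℤ) (hn : 0 < n)
    (hcop : IsCoprime ((ℓ : ℤ) + 1 - a) (n : ℤ)) (k : ℕ) (x : JZero (M * q))
    (hx : (n : ℤ) • x = 0) (hfix : ∀ σ ∈ A.inertiaSubgroupIn ℚ, σ • x = x)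
    (hk : ((Tp (M * q) ℓ - (a : AddMonoid.End (JZero (M * q)))) ^ k) x = 0) :
    ∃ (r : TorsRep n x) (u : FK (K0 A) (M * q)), r.f = S44.X.Cover.bcX (K0 A) (M * q) u ∧
      ∀ c, (VV (A0 A) hc c).valuation u = 1 :=
  exists_unit_torsRep hq hc hA hl hlN a hn hcop k x hx hfix hk

end Fermat.Agent.S43.E0.Vert

end
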