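/-
Row 37 (S43), block E0, node UNITREP (helper226).  The form for the tower `Inst.VV (M q) p G a` of helper75:
an `I_A`-fixed point of `J[p^j]` in the `𝔪`-part (`𝔪` not Eisenstein: `p ∤ l + 1 - a_l` for one `l ∤ M q p`) has a
representative over the inertia field which is a unit at both vertical valuations.
-/
import Fermat.Agent.S43.E0.Vert.J
import Fermat.Agent.S43.E0.Inst.Defs

set_option autoImplicit false

noncomputable section

namespace Fermat.Agent.S43.E0.Vert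

open ModularCurve AlgebraicCurve Fermat.Agent.S24 Fermat.Agent.GAL
  Fermat.Agent.GAL.E Fermat.Agent.Lib.InertiaField Fermat.Agent.BAD.Bridge
  Fermat.Agent.BAD.LevelQ.Mod Fermat.Agent.S19.Weil Fermat.Agent.S15

variable {A : ValuationSubring Kbar} {M q : ℕ} [NeZero M] [NeZero q]
  [IsDiscreteValuationRing (A0 A)]

theorem exists_unit_torsRep_VV (hq : q.Prime) (hc : M.Coprime q) (hA : A.LiesOverPrime q) {p : ℕ}
    (hp : p.Prime) (G : ℕ → Prop) (a : ℕ → ℤ) (l : Inst.Idx (M * q) p G) (hne : ¬ (p : ℤ) ∣ (l.1 : ℤ) + 1 - a l.1)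
    (j : ℕ) (x : JZero (M * q)) (hxV : x ∈ Inst.VV (M * q) p G a) (hx : p ^ j • x = 0)
    (hfix : ∀ σ ∈ A.inertiaSubgroupIn ℚ, σ • x = x) :
    ∃ (r : TorsRep (p ^ j) x) (u : FK (K0 A) (M * q)),
      r.f = S44.X.Cover.bcX (K0 A) (M * q) u ∧ ∀ c, (VV (A0 A) hc c).valuation u = 1 := by
  have : NeZero l.1 := ⟨l.2.1.ne_zero⟩
  obtain ⟨k, hk⟩ := hxV.2 l
  have hlN : ¬ l.1 ∣ M * q := fun h => l.2.2.1 (h.mul_right p)
  have hcop : IsCoprime ((l.1 : ℤ) + 1 - a l.1) ((p ^ j : ℕ) : ℤ) := by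
    rw [Nat.cast_pow]
    exact (((Nat.prime_iff_prime_int.1 hp).irreducible.coprime_iff_not_dvd).2 hne).symm.pow_right
  refine exists_unit_torsRep_bcX hq hc hA l.2.1 hlN (a l.1) (pow_pos hp.pos j) hcop k x ?_ hfix hk
  rw [natCast_zsmul]
  exact hx

end Fermat.Agent.S43.E0.Vert

end
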