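/-
S43 / E0 / node UNITREP (helper216; blueprint helper226 + helper73): a class of the Kummer model
`W (L q) n` which is fixed by the inertia group `I_A` and is a generalised eigenvector of ONE non
Eisenstein Hecke operator `T_ℓ` has a representative `bc u₁`, `u₁ ∈ FK (K0 A) (L q)`, which is a unit
for the two vertical valuations `VV 0`, `VV 1` (and whose horizontal divisor is divisible by `n`).

Proof: `T_ℓ - ℓ - 1` is bijective on the `I_A`-fixed generalised eigenvectors (abstract lemma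
`exists_preimage`), (D) = `exists_K0_rep_isKum`, (V)+(N) = `MazSlope.nodeVert4`.
-/
import Fermat.Agent.S43.E0.Vert.Desc
import Fermat.Agent.S43.E0.Maz.Slope.Vert4
import Fermat.Agent.BAD.Bridge.HorDiv
import Fermat.Agent.GAL.E.Level

set_option autoImplicit false

noncomputable section

namespace Fermat.Agent.S43.E0.Vert

open ModularCurve AlgebraicCurve Fermat.Agent.S24 Fermat.Agent.GAL Fermat.Agent.GAL.E
  Fermat.Agent.Lib.InertiaField Fermat.Agent.BAD.Bridge Fermat.Agent.BAD.LevelQ.Mod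
  Fermat.Agent.S18

/-- **Abstract lemma.**  `W` killed by `n`, `T` an endomorphism, `S` a `T`-stable subgroup,
`x ∈ S` killed by `(T - a) ^ k`, `b - a` prime to `n`.  Then `x = (T - b) x'` with `x' ∈ S`. -/
theorem exists_preimage {W : Type*} [AddCommGroup W] {n : ℕ} (hW : ∀ x : W, n • x = 0)
    (T : W →+ W) (S : AddSubgroup W) (hS : ∀ x ∈ S, T x ∈ S) (a b : ℤ)
    (hab : IsCoprime (b - a) (n : ℤ)) (k : ℕ) :
    ∀ x ∈ S, ((fun y => T y - a • y)^[k]) x = 0 → ∃ x' ∈ S, T x' - b • x' = x := by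
  obtain ⟨c', m, hc⟩ := hab
  induction k with
  | zero =>
    intro x _ hx
    exact ⟨0, S.zero_mem, by rw [map_zero, smul_zero, sub_zero]; exact hx.symm⟩
  | succ k ih =>
    intro x hxS hx
    rw [Function.iterate_succ_apply] at hx
    obtain ⟨x₁, hx₁S, hx₁⟩ := ih (T x - a • x) (S.sub_mem (hS x hxS) (S.zsmul_mem hxS a)) hx
    refine ⟨c' • (x₁ - x), S.zsmul_mem (S.sub_mem hx₁S hxS) c', ?_⟩
    have hn : (n : ℤ) • x = 0 := by rw [natCast_zsmul]; exact hW x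
    have h1 : T (x₁ - x) - b • (x₁ - x) = (b - a) • x := by
      rw [map_sub, smul_sub, sub_smul]
      have : T x₁ = T x - a • x + b • x₁ := by rw [← hx₁]; abel
      rw [this]
      abel
    have h2 : x = (c' * (b - a) + m * (n : ℤ)) • x := by rw [hc, one_smul]
    rw [map_zsmul, smul_comm b c', ← smul_sub, h1, smul_smul]
    conv_rhs => rw [h2, add_smul, mul_smul m, hn, smul_zero, add_zero]

/-- the subgroup of the classes fixed by the inertia group of `A` -/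
def fixI (N n : ℕ) (A : ValuationSubring Kbar) : AddSubgroup (W N n) where
  carrier := {x | ∀ σ ∈ A.inertiaSubgroupIn ℚ, rho N n σ x = x}
  zero_mem' := fun σ _ => map_zero _
  add_mem' := fun {x y} hx hy σ hσ => by rw [map_add, hx σ hσ, hy σ hσ]
  neg_mem' := fun {x} hx σ hσ => by rw [map_neg, hx σ hσ]

theorem mem_fixI {N n : ℕ} {A : ValuationSubring Kbar} {x : W N n} :
    x ∈ fixI N n A ↔ ∀ σ ∈ A.inertiaSubgroupIn ℚ, rho N n σ x = x := Iff.rfl

theorem TW_mem_fixI {N n ℓ : ℕ} [NeZero ℓ] {A : ValuationSubring Kbar} (H : HeckeOp N ℓ)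
    {x : W N n} (hx : x ∈ fixI N n A) : H.TW n x ∈ fixI N n A := by
  intro σ hσ
  have h := congrArg (fun f : AddMonoid.End (W N n) => f x) (Level.commute_rho_TW H n σ).eq
  have h' : rho N n σ (H.TW n x) = H.TW n (rho N n σ x) := h
  rw [h', hx σ hσ]

/-- **UNITREP, one step**: `(T_ℓ - ℓ - 1) x'`, `x'` fixed by inertia, has a representative over the
inertia field which is a unit at the two vertical valuations. -/
theorem exists_unit_rep_of_hecke {q : ℕ} [NeZero q] {L : ℕ} [NeZero L] (hq : q.Prime)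
    (hc : L.Coprime q) (A : ValuationSubring S44.Qb) [IsDiscreteValuationRing (A0 A)]
    (hA : A.LiesOverPrime q) {ℓ : ℕ} [NeZero ℓ] (hℓ : ℓ.Prime) (hℓN : ¬ ℓ ∣ L * q)
    (H : HeckeOp (L * q) ℓ) {n : ℕ} (hn : 0 < n) (x' : W (L * q) n)
    (hx' : x' ∈ fixI (L * q) n A) :
    ∃ (u₁ : S18.FK (K0 A) (L * q)) (u : kum (L * q) n), u₁ ≠ 0 ∧
      ((u : (FN (L * q))ˣ) : FN (L * q)) = bc A (L * q) u₁ ∧
      cls u = H.TW n x' - ((ℓ + 1 : ℕ) : ℤ) • x' ∧
      (VV (A0 A) hc 0).valuation u₁ = 1 ∧ (VV (A0 A) hc 1).valuation u₁ = 1 ∧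
      S36.BP.HorDiv (K0 A) n u₁ := by
  obtain ⟨u₀, hu₀, v, hv, -, rfl⟩ := exists_K0_rep_isKum (L * q) n hn A x' hx'
  obtain ⟨u₁, hu₁, h0, h1⟩ := MazSlope.nodeVert4 q L hq hc A hA ℓ hℓ hℓN H u₀ hu₀
  have hv' : ((v : (FN (L * q))ˣ) : FN (L * q)) = bc A (L * q) u₀ := hv
  set w : kum (L * q) n :=
    (⟨H.TU (v : (FN (L * q))ˣ), H.TU_mem_kum (v : (FN (L * q))ˣ) v.2⟩ : kum (L * q) n) *
      (v ^ (ℓ + 1))⁻¹ with hw
  have hwu : ((w : (FN (L * q))ˣ) : FN (L * q)) = bc A (L * q) u₁ := by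
    rw [hu₁, ← hv', div_eq_mul_inv]
    simp [hw, HeckeOp.coe_TU]
  have hu₁0 : u₁ ≠ 0 := by
    rintro rfl
    rw [map_zero] at h0
    exact zero_ne_one h0
  refine ⟨u₁, w, hu₁0, hwu, ?_, h0, h1, ?_⟩
  · rw [hw, cls_mul, cls_inv, cls_pow, ← HeckeOp.TW_cls, natCast_zsmul, sub_eq_add_neg]
  · refine horDiv_of_isKum A (L * q) n u₁ hu₁0 ?_
    rw [← hwu]
    exact w.2

/-- **UNITREP.**  `x` fixed by `I_A`, killed by `(T_ℓ - a) ^ k`, `ℓ + 1 - a` prime to `n`. -/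
theorem exists_unit_rep_cls {q : ℕ} [NeZero q] {L : ℕ} [NeZero L] (hq : q.Prime)
    (hc : L.Coprime q) (A : ValuationSubring S44.Qb) [IsDiscreteValuationRing (A0 A)]
    (hA : A.LiesOverPrime q) {ℓ : ℕ} [NeZero ℓ] (hℓ : ℓ.Prime) (hℓN : ¬ ℓ ∣ L * q)
    (H : HeckeOp (L * q) ℓ) {n : ℕ} (hn : 0 < n) (a : ℤ)
    (ha : IsCoprime (((ℓ + 1 : ℕ) : ℤ) - a) (n : ℤ)) (k : ℕ) (x : W (L * q) n)
    (hx : ∀ σ ∈ A.inertiaSubgroupIn ℚ, rho (L * q) n σ x = x)
    (hk : ((fun y => H.TW n y - a • y)^[k]) x = 0) :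
    ∃ (u₁ : S18.FK (K0 A) (L * q)) (u : kum (L * q) n), u₁ ≠ 0 ∧
      ((u : (FN (L * q))ˣ) : FN (L * q)) = bc A (L * q) u₁ ∧ cls u = x ∧
      (VV (A0 A) hc 0).valuation u₁ = 1 ∧ (VV (A0 A) hc 1).valuation u₁ = 1 ∧
      S36.BP.HorDiv (K0 A) n u₁ := by
  obtain ⟨x', hx', e⟩ := exists_preimage (n := n) nsmul_W (H.TW n) (fixI (L * q) n A)
    (fun y hy => TW_mem_fixI H hy) a ((ℓ + 1 : ℕ) : ℤ) ha k x hx hk
  obtain ⟨u₁, u, h0, h1, h2, h3⟩ := exists_unit_rep_of_hecke hq hc A hA hℓ hℓN H hn x' hx'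
  exact ⟨u₁, u, h0, h1, h2.trans e, h3⟩

end Fermat.Agent.S43.E0.Vert

end
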