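/-
Row 37 (S43), block E0: `nodeUnitRep : NodeUnitRep` (interface of `E0/OrthJ.lean`), from `Vert/UnitRep.lean`
(`exists_unit_rep_cls`): translation functions <-> classes of the Kummer model `W N n`.
-/
import Fermat.Agent.S43.E0.Vert.UnitRep
import Fermat.Agent.S43.E0.OrthJ

set_option autoImplicit false

noncomputable section

namespace Fermat.Agent.S43.E0

open ModularCurve AlgebraicCurve Fermat.Agent.S24 Fermat.Agent.GAL Fermat.Agent.GAL.E
  Fermat.Agent.Lib.InertiaField Fermat.Agent.BAD.LevelQ.Mod Fermat.Agent.S44.Depth.Inst Fermat.Agent.S18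

/-- `tauF` on Kummer units. -/
def tauK {N ℓ n : ℕ} [NeZero ℓ] (H : HeckeOp N ℓ) (c : ℤ) (u : kum N n) : kum N n :=
  (⟨H.TU (u : (FN N)ˣ), H.TU_mem_kum (u : (FN N)ˣ) u.2⟩ : kum N n) * (u ^ c)⁻¹

theorem coe_tauK {N ℓ n : ℕ} [NeZero ℓ] (H : HeckeOp N ℓ) (c : ℤ) (u : kum N n) :
    (((tauK H c u : kum N n) : (FN N)ˣ) : FN N) = tauF H c ((u : (FN N)ˣ) : FN N) := by
  unfold tauK tauF
  rw [div_eq_mul_inv]
  simp [HeckeOp.coe_TU]

theorem cls_tauK {N ℓ n : ℕ} [NeZero ℓ] (H : HeckeOp N ℓ) (c : ℤ) (u : kum N n) :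
    cls (tauK H c u) = H.TW n (cls u) - c • cls u := by
  unfold tauK
  rw [cls_mul, cls_inv, HeckeOp.TW_cls, sub_eq_add_neg]
  rfl

theorem coe_tauK_iterate {N ℓ n : ℕ} [NeZero ℓ] (H : HeckeOp N ℓ) (c : ℤ) (k : ℕ) (u : kum N n) :
    ((((tauK H c)^[k] u : kum N n) : (FN N)ˣ) : FN N) = (tauF H c)^[k] ((u : (FN N)ˣ) : FN N) := by
  induction k generalizing u with
  | zero => rfl
  | succ k ih => rw [Function.iterate_succ_apply, Function.iterate_succ_apply, ih, coe_tauK]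

theorem cls_tauK_iterate {N ℓ n : ℕ} [NeZero ℓ] (H : HeckeOp N ℓ) (c : ℤ) (k : ℕ) (u : kum N n) :
    cls ((tauK H c)^[k] u) = ((fun y => H.TW n y - c • y)^[k]) (cls u) := by
  induction k generalizing u with
  | zero => rfl
  | succ k ih => rw [Function.iterate_succ_apply, Function.iterate_succ_apply, ih, cls_tauK]

theorem cls_eq_cls_of_eq_mul_pow {N n : ℕ} (u v : kum N n) (h : FN N)
    (e : ((u : (FN N)ˣ) : FN N) = ((v : (FN N)ˣ) : FN N) * h ^ n) : cls u = cls v := by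
  rw [← sub_eq_zero, sub_eq_add_neg, ← cls_inv, ← cls_mul, cls_eq_zero_iff]
  refine mem_pows_of_eq_pow (w := h) ?_
  have hv : ((v : (FN N)ˣ) : FN N) ≠ 0 := Units.ne_zero _
  simp only [Subgroup.coe_mul, Subgroup.coe_inv, Units.val_mul, Units.val_inv_eq_inv_val]
  rw [e]
  field_simp

theorem exists_eq_mul_pow_of_cls_eq {N n : ℕ} (u v : kum N n) (e : cls u = cls v) :
    ∃ g : FN N, g ≠ 0 ∧ g ^ n * ((v : (FN N)ˣ) : FN N) = ((u : (FN N)ˣ) : FN N) := by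
  rw [← sub_eq_zero, sub_eq_add_neg, ← cls_inv, ← cls_mul, cls_eq_zero_iff] at e
  obtain ⟨w, hw⟩ := e
  refine ⟨(w : FN N), Units.ne_zero _, ?_⟩
  have h1 : ((w ^ n : (FN N)ˣ) : FN N) = (((u * v⁻¹ : kum N n) : (FN N)ˣ) : FN N) := congrArg _ hw
  have hv : ((v : (FN N)ˣ) : FN N) ≠ 0 := Units.ne_zero _
  simp only [Subgroup.coe_mul, Subgroup.coe_inv, Units.val_mul, Units.val_inv_eq_inv_val,
    Units.val_pow_eq_pow_val] at h1
  rw [h1]
  field_simp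

/-- **Node UNITREP.** -/
theorem nodeUnitRep : NodeUnitRep := by
  intro q M' _ _ hq _ _ hc A _ hA n hn _ ℓ _ hℓ hℓL H c hcc f hf hK hI ⟨k, h, hk⟩
  let u : kum (M' * 4 * q) n := ⟨Units.mk0 f hf, hK⟩
  have hu : ((u : (FN (M' * 4 * q))ˣ) : FN (M' * 4 * q)) = f := rfl
  obtain ⟨u₁, u', -, h1, h2, h3, h4, -⟩ := Vert.exists_unit_rep_cls hq hc A hA hℓ hℓL H hn c
    (by push_cast; exact hcc) k (cls u)
    (fun σ hσ => by
      obtain ⟨h', hh'⟩ := hI σ hσ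
      rw [rho_cls]
      exact cls_eq_cls_of_eq_mul_pow _ u h' hh')
    (by
      rw [← cls_tauK_iterate, cls_eq_zero_iff]
      exact mem_pows_of_eq_pow (w := h) (by rw [coe_tauK_iterate]; exact hk))
  obtain ⟨g, hg, e⟩ := exists_eq_mul_pow_of_cls_eq u' u h2
  exact ⟨g, u₁, hg, e.trans h1, h3, h4⟩

end Fermat.Agent.S43.E0

end
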