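/-
Row 37 (S43), block E0, node UNITREP, the integrality step (helper105).

`h ∈ FN N`, `c ∈ ℚ̄`, `c h ^ n ∈ bc (FK (K0 A) N)`  ⟹  `h = κ · bc h0` with `κ ∈ ℚ̄ˣ`, `h0 ∈ FK (K0 A) N`
(`h0` = the normalised `n`-th root: leading coefficient `1`), and `y = c0 h0 ^ n` with `c0 ∈ K0 A`.
Everything follows from `BAD.Bridge.PowDesc_series`.
-/
import Fermat.Agent.BAD.Bridge.PowDesc
import Fermat.Agent.S44.X.Cover.Defs

set_option autoImplicit false

noncomputable section

namespace Fermat.Agent.S43.E0.Vert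

open ModularCurve AlgebraicCurve Fermat.Agent.S24 Fermat.Agent.Lib.InertiaField
open Fermat.Agent.S18.Descent Fermat.Agent.GAL Fermat.Agent.BAD.Bridge

/-- the base change maps `BAD.Bridge.bc` and `S44.X.Cover.bcX` are the same map -/
theorem bc_eq_bcX (A : ValuationSubring Kbar) (N : ℕ) :
    BAD.Bridge.bc A N = S44.X.Cover.bcX (K0 A) N := rfl

/-- **Integrality step.**  If `c h ^ n` is defined over the inertia field, then `h` is a constant times a
function defined over the inertia field. -/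
theorem exists_K0_root (A : ValuationSubring Kbar) (N n : ℕ) (hn : n ≠ 0)
    (y : FK (K0 A) N) (hy : y ≠ 0) (c : Kbar) (h : FN N)
    (hyh : bc A N y = algebraMap Kbar (FN N) c * h ^ n) :
    ∃ (κ : Kbar) (c0 : K0 A) (h0 : FK (K0 A) N), κ ≠ 0 ∧ c0 ≠ 0 ∧ h0 ≠ 0 ∧
      h = algebraMap Kbar (FN N) κ * bc A N h0 ∧
      y = algebraMap (K0 A) (FK (K0 A) N) c0 * h0 ^ n := by
  -- `c = γ ^ n`
  obtain ⟨γ, hγ⟩ := IsAlgClosed.exists_pow_nat_eq c (Nat.pos_of_ne_zero hn)
  have hbc0 : bc A N y ≠ 0 := (map_ne_zero _).2 hy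
  have hc0 : c ≠ 0 := by
    rintro rfl
    rw [map_zero, zero_mul] at hyh
    exact hbc0 hyh
  have hγ0 : γ ≠ 0 := by
    rintro rfl
    rw [zero_pow hn] at hγ
    exact hc0 hγ.symm
  have hh0 : h ≠ 0 := by
    rintro rfl
    rw [zero_pow hn, mul_zero] at hyh
    exact hbc0 hyh
  set v : FN N := algebraMap Kbar (FN N) γ * h with hvdef
  have hv : bc A N y = v ^ n := by
    rw [hyh, hvdef, mul_pow, ← map_pow, hγ]
  have hy' : (y : LaurentSeries (K0 A)) ≠ 0 := fun h => hy (Subtype.ext h)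
  have hv' : coeffMap (algebraMap (K0 A) Kbar) (y : LaurentSeries (K0 A))
      = (v : LaurentSeries Kbar) ^ n := by
    rw [← coe_bc, hv]
    rfl
  obtain ⟨c0, r, hc, hr0, hyr, hr⟩ := PowDesc_series (algebraMap (K0 A) Kbar) n hn _ hy' _ hv'
  have : Algebra.IsAlgebraic ℚ Kbar := AlgebraicClosure.isAlgebraic ℚ
  have : Algebra.IsAlgebraic (K0 A) Kbar := Algebra.IsAlgebraic.tower_top (K := ℚ) (K0 A)
  have hmem : r ∈ laurentBaseChange (K0 A) (modularFunctionFieldFull N) := by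
    apply mem_laurentBaseChange_of_coeffMap_mem (L' := Kbar)
    rw [hr, HahnSeries.C_apply, ← algebraMap_laurentSeries_eq_single]
    exact mul_mem ((laurentBaseChange Kbar (modularFunctionFieldFull N)).algebraMap_mem _) v.2
  have hv0 : (v : LaurentSeries Kbar) ≠ 0 := by
    intro h0
    exact mul_ne_zero ((map_ne_zero _).2 hγ0) hh0 (Subtype.ext h0)
  have hd : (v : LaurentSeries Kbar).leadingCoeff ≠ 0 := HahnSeries.leadingCoeff_ne_zero.mpr hv0
  set d := (v : LaurentSeries Kbar).leadingCoeff with hddef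
  refine ⟨d / γ, c0, ⟨r, hmem⟩, div_ne_zero hd hγ0, hc, fun h => hr0 (congrArg Subtype.val h), ?_,
    Subtype.ext ?_⟩
  · -- `bc h0 = d⁻¹ γ h`
    have h1 : bc A N ⟨r, hmem⟩ = algebraMap Kbar (FN N) d⁻¹ * v := by
      apply Subtype.ext
      rw [coe_bc]
      show coeffMap (algebraMap (K0 A) Kbar) r = _
      rw [hr, HahnSeries.C_apply, ← algebraMap_laurentSeries_eq_single]
      rfl
    rw [h1, hvdef, ← mul_assoc, ← mul_assoc, ← map_mul, ← map_mul,
      div_mul_eq_mul_div, mul_inv_cancel₀ hd, one_div, inv_mul_cancel₀ hγ0, map_one, one_mul]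
  · rw [hyr, HahnSeries.C_apply, ← algebraMap_laurentSeries_eq_single]
    rfl

end Fermat.Agent.S43.E0.Vert

end
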