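/-
Row 37 (S43), block E0, node UNITREP / (V1) at `v_0` (helper105).

Gauss normalisation `C1.RedS A f c r` ("`v(f) = v(c)` and `f / c` reduces to `r`").
* `redS_T`     : `v_∞(T_ℓ u) = (ℓ + 1) v_∞(u)`   (any level `N`, any `HeckeOp N ℓ`);
* `redS_w_T`   : `v_0(T_ℓ u) = (ℓ + 1) v_0(u)`, `v_0 = v_∞ ∘ w_q`   (level `M q`; uses `S44.X.Cover.w_T`);
* `slope_T`    : the two together, for the quotient `c_0 / c_∞`;
* `redS_pow`, `redS_const_mul` : the behaviour under `n`-th powers and constants.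
-/
import Fermat.Agent.C1.HeckeStable
import Fermat.Agent.S44.X.Cover.TW.Main

set_option autoImplicit false

noncomputable section

namespace Fermat.Agent.S43.E0.Vert

open ModularCurve AlgebraicCurve Fermat.Agent.S24 Fermat.Agent.S24.B Fermat.Agent.GAL
  Fermat.Agent.GAL.E Fermat.Agent.C1

variable {A : ValuationSubring Kbar} {q : ℕ}

/-- **(V1) at `v_∞`.**  `v_∞(T_ℓ u) = (ℓ + 1) v_∞(u)`. -/
theorem redS_T (hq : q.Prime) (hA : A.LiesOverPrime q) {N ℓ : ℕ} [NeZero ℓ] (H : HeckeOp N ℓ)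
    {u : FN N} {c : Kbar} {r : LaurentSeries (IsLocalRing.ResidueField A)}
    (h : RedS A (u : LaurentSeries Kbar) c r) :
    ∃ r' : LaurentSeries (IsLocalRing.ResidueField A),
      RedS A ((H.T u : FN N) : LaurentSeries Kbar) (c ^ (ℓ + 1)) r' := by
  have hℓ : ℓ ≠ 0 := NeZero.ne ℓ
  have : NeZero (ℓ * ℓ) := ⟨mul_ne_zero hℓ hℓ⟩
  have h2 := h.map_qExpand (ℓ * ℓ)
  have h3 : ∀ b ∈ Finset.range ℓ, ∃ R : LaurentSeries (IsLocalRing.ResidueField A),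
      RedS A (twist (zetaK ℓ ^ b) (u : LaurentSeries Kbar)) c R := by
    intro b _
    obtain ⟨z, hz⟩ := exists_unit_of_pow_eq_one A (zetaK ℓ ^ b) ℓ hℓ (by
      rw [← pow_mul, mul_comm, pow_mul, (isPrimitiveRoot_zetaK ℓ).pow_eq_one, one_pow])
    exact ⟨_, h.map_twist _ z hz⟩
  choose! R hR using h3
  have h4 := RedS.prod (Finset.range ℓ) hR
  have h5 := h2.mul h4
  rw [← H.qExpand_T u, Finset.prod_const, Finset.card_range, ← pow_succ'] at h5
  -- descend along `Q ↦ Q ^ ℓ`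
  have hT0 : H.T u ≠ 0 := by
    intro h0
    apply h5.ne_zero
    rw [h0]
    exact map_zero _
  obtain ⟨c', r', h'⟩ := exists_redS hq hA (H.T u) hT0
  obtain ⟨a, ha1, -⟩ := h5.unique (h'.map_qExpand ℓ)
  have h6 := h'.rescale a
  rw [← ha1] at h6
  exact ⟨_, h6⟩

/-- **(V1) at `v_0 = v_∞ ∘ w_q`.**  `v_0(T_ℓ u) = (ℓ + 1) v_0(u)`. -/
theorem redS_w_T {M ℓ : ℕ} [NeZero M] [NeZero q] [NeZero ℓ] (hq : q.Prime) (hqM : ¬ q ∣ M)
    (hA : A.LiesOverPrime q) (hℓ : ℓ.Prime) (hℓN : ¬ ℓ ∣ M * q) (D : ALData M q)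
    (H : HeckeOp (M * q) ℓ) {u : FN (M * q)} {c : Kbar}
    {r : LaurentSeries (IsLocalRing.ResidueField A)}
    (h : RedS A ((D.w u : FN (M * q)) : LaurentSeries Kbar) c r) :
    ∃ r' : LaurentSeries (IsLocalRing.ResidueField A),
      RedS A ((D.w (H.T u) : FN (M * q)) : LaurentSeries Kbar) (c ^ (ℓ + 1)) r' := by
  rw [S44.X.Cover.w_T hq hqM hℓ hℓN D H u]
  exact redS_T hq hA H h

end Fermat.Agent.S43.E0.Vert

end
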