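/-
Row 37 (S43), block E0, node UNITREP, SHORT FORM (helper105).

**For every `I_A`-fixed class `x` of `W (M q) n`, the class `(T_ℓ - ℓ - 1) x` has a representative `bcX u₁`,
`u₁ ∈ FK (K0 A) (M q)`, which is a UNIT at the two vertical valuations `VV 0`, `VV 1`.**

Proof: `x = [bcX u₀]` (descent (D)); `f := T_ℓ(u₀) / u₀ ^ (ℓ + 1)` is fixed by inertia, hence `f = bcX u₁`; the Gauss
order of `T_ℓ u` is `ℓ + 1` times the Gauss order of `u` at `v_∞` and at `v_0 = v_∞ ∘ w` (`redS_T`, `redS_w_T`),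
so both orders of `f` vanish EXACTLY.  No integrality step, no normalisation, no weak approximation, no eta unit.

USE: on the `𝔪`-part (`𝔪` not Eisenstein) `η := T_ℓ - ℓ - 1` is injective, commutes with Galois, so it is bijective
on the finite group of the `I_A`-fixed classes: every `I_A`-fixed class of the `𝔪`-part is `η x'` (`exists_unit_rep`).
-/
import Fermat.Agent.S43.E0.Vert.VZero
import Fermat.Agent.S43.E0.Vert.Desc
import Fermat.Agent.S44.X.Model.GaussFN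
import Fermat.Agent.S44.X.Cover.Hecke.Main

set_option autoImplicit false
set_option linter.unusedSectionVars false

noncomputable section

namespace Fermat.Agent.S43.E0.Vert

open ModularCurve AlgebraicCurve Fermat.Agent.S24 Fermat.Agent.S24.B Fermat.Agent.GAL
  Fermat.Agent.GAL.E Fermat.Agent.C1 Fermat.Agent.Lib.InertiaField Fermat.Agent.BAD.LevelQ.Mod
  Fermat.Agent.S44.X.Cover Fermat.Agent.S44.X.Model Fermat.Agent.S36.Mod Fermat.Agent.BAD.Bridge

variable {A : ValuationSubring Kbar} {q : ℕ}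

/-- a series with Gauss normalisation `1` lies in the Gauss valuation ring -/
theorem mem_of_redS_one {L : ℕ} {G : ValuationSubring (FN L)} (hG : IsGaussFN A L G) {f : FN L}
    {r : LaurentSeries (IsLocalRing.ResidueField A)} (h : RedS A (f : LaurentSeries Kbar) 1 r) :
    f ∈ G := by
  obtain ⟨-, P, Q, -, hQ, e1, -⟩ := h
  rw [hG]
  exact ⟨P, Q, hQ, by rw [e1, map_one, one_mul]⟩

/-- a series with Gauss normalisation `1` is a unit of the Gauss valuation ring -/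
theorem val_eq_one_of_redS_one {L : ℕ} {G : ValuationSubring (FN L)} (hG : IsGaussFN A L G)
    {f : FN L} {r : LaurentSeries (IsLocalRing.ResidueField A)}
    (h : RedS A (f : LaurentSeries Kbar) 1 r) : G.valuation f = 1 := by
  have h1 : f ∈ G := mem_of_redS_one hG h
  have h2 : f⁻¹ ∈ G := by
    have := h.inv
    rw [inv_one] at this
    exact mem_of_redS_one hG (f := f⁻¹) this
  have a1 := (G.valuation_le_one_iff _).2 h1
  have a2 := (G.valuation_le_one_iff _).2 h2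
  rw [map_inv₀] at a2
  refine le_antisymm a1 ?_
  by_contra hlt
  have hlt' : G.valuation f < 1 := lt_of_not_ge hlt
  have hf0 : G.valuation f ≠ 0 := by
    intro h0
    rw [h0, inv_zero] at a2
    have hf : f = 0 := (map_eq_zero _).1 h0
    apply h.ne_zero
    rw [hf]
    rfl
  have := (one_lt_inv₀ (zero_lt_iff.2 hf0)).2 hlt'
  exact absurd a2 (not_le.2 this)

/-- `valuation = 1` in terms of membership -/
theorem val_eq_one_iff_mem {F : Type*} [Field F] (V : ValuationSubring F) {z : F} (hz : z ≠ 0) :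
    V.valuation z = 1 ↔ z ∈ V ∧ z⁻¹ ∈ V := by
  constructor
  · intro h
    refine ⟨(V.valuation_le_one_iff _).1 h.le, (V.valuation_le_one_iff _).1 ?_⟩
    rw [map_inv₀, h, inv_one]
  · rintro ⟨h1, h2⟩
    have a1 := (V.valuation_le_one_iff _).2 h1
    have a2 := (V.valuation_le_one_iff _).2 h2
    rw [map_inv₀] at a2
    refine le_antisymm a1 ?_
    by_contra hlt
    have hlt' : V.valuation z < 1 := lt_of_not_ge hlt
    have hf0 : V.valuation z ≠ 0 := (map_ne_zero _).2 hz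
    have := (one_lt_inv₀ (zero_lt_iff.2 hf0)).2 hlt'
    exact absurd a2 (not_le.2 this)

variable {M : ℕ} [NeZero M] [NeZero q]

/-- **UNITREP, function form.**  `T_ℓ(u) / u ^ (ℓ + 1)` has Gauss normalisation `1` at `v_∞` and at `v_0`. -/
theorem redS_T_div_pow {ℓ : ℕ} [NeZero ℓ] (hq : q.Prime) (hqM : ¬ q ∣ M) (hA : A.LiesOverPrime q)
    (hℓ : ℓ.Prime) (hℓN : ¬ ℓ ∣ M * q) (D : ALData M q) (H : HeckeOp (M * q) ℓ) {u : FN (M * q)}
    (hu : u ≠ 0) :
    (∃ r, RedS A ((H.T u / u ^ (ℓ + 1) : FN (M * q)) : LaurentSeries Kbar) 1 r) ∧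
      ∃ r, RedS A ((D.w (H.T u / u ^ (ℓ + 1)) : FN (M * q)) : LaurentSeries Kbar) 1 r := by
  constructor
  · obtain ⟨c, r, h⟩ := exists_redS hq hA u hu
    obtain ⟨r', h'⟩ := redS_T hq hA H h
    have h2 := h'.div (h.pow (ℓ + 1))
    rw [div_self (pow_ne_zero _ h.1)] at h2
    exact ⟨_, h2⟩
  · have hwu : D.w u ≠ 0 := (map_ne_zero _).2 hu
    obtain ⟨c, r, h⟩ := exists_redS hq hA (D.w u) hwu
    obtain ⟨r', h'⟩ := redS_w_T hq hqM hA hℓ hℓN D H h
    have h2 := h'.div (h.pow (ℓ + 1))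
    rw [div_self (pow_ne_zero _ h.1)] at h2
    have e : ((D.w (H.T u / u ^ (ℓ + 1)) : FN (M * q)) : LaurentSeries Kbar) =
        ((D.w (H.T u) : FN (M * q)) : LaurentSeries Kbar) /
          ((D.w u : FN (M * q)) : LaurentSeries Kbar) ^ (ℓ + 1) := by
      rw [map_div₀, map_pow]
      rfl
    rw [e]
    exact ⟨_, h2⟩

/-- **UNITREP, short form.** -/
theorem exists_unit_rep_T [IsDiscreteValuationRing (A0 A)] {ℓ n : ℕ} [NeZero ℓ] (hq : q.Prime)
    (hqM : ¬ q ∣ M) (hA : A.LiesOverPrime q) (hc : M.Coprime q) (hn : 0 < n) (hℓ : ℓ.Prime)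
    (hℓN : ¬ ℓ ∣ M * q) (H : HeckeOp (M * q) ℓ) (x : W (M * q) n)
    (hx : ∀ σ ∈ A.inertiaSubgroupIn ℚ, rho (M * q) n σ x = x) :
    ∃ (u₁ : FK (K0 A) (M * q)) (v : kum (M * q) n),
      ((v : (FN (M * q))ˣ) : FN (M * q)) = bcX (K0 A) (M * q) u₁ ∧
      cls v = H.TW n x - (ℓ + 1) • x ∧ ∀ i, (VV (A0 A) hc i).valuation u₁ = 1 := by
  obtain ⟨D⟩ := nonempty_alData M q hq hqM
  obtain ⟨u₀, hu₀, u, huu, -, rfl⟩ := exists_K0_rep_isKum (M * q) n hn A x hx
  -- the new Kummer unit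
  set v : kum (M * q) n :=
    ⟨H.TU (u : (FN (M * q))ˣ), H.TU_mem_kum (u : (FN (M * q))ˣ) u.2⟩ * (u ^ (ℓ + 1))⁻¹ with hv
  have hcls : cls v = H.TW n (cls u) - (ℓ + 1) • cls u := by
    rw [hv, cls_mul, cls_inv, cls_pow, H.TW_cls, sub_eq_add_neg]
  have hu0 : ((u : (FN (M * q))ˣ) : FN (M * q)) ≠ 0 := Units.ne_zero _
  have hvf : ((v : (FN (M * q))ˣ) : FN (M * q)) =
      H.T ((u : (FN (M * q))ˣ) : FN (M * q)) / ((u : (FN (M * q))ˣ) : FN (M * q)) ^ (ℓ + 1) := by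
    rw [hv, div_eq_mul_inv]
    simp [HeckeOp.coe_TU]
  -- it is fixed by inertia
  have hfixu : ∀ σ ∈ A.inertiaSubgroupIn ℚ,
      galF (M * q) σ ((u : (FN (M * q))ˣ) : FN (M * q)) = ((u : (FN (M * q))ˣ) : FN (M * q)) :=
    fun σ hσ => S36.Desc.galF_eq_of_K0_model (M * q) A _ (u₀ : LaurentSeries (K0 A))
      (by rw [huu]; rfl) σ hσ
  have hfix : ∀ σ ∈ A.inertiaSubgroupIn ℚ,
      galF (M * q) σ ((v : (FN (M * q))ˣ) : FN (M * q)) = ((v : (FN (M * q))ˣ) : FN (M * q)) := by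
    intro σ hσ
    rw [hvf, map_div₀, map_pow, H.galF_T, hfixu σ hσ]
  obtain ⟨y, hy, hyx⟩ := S36.Desc.exists_K0_model (M * q) A _ hfix
  have hbc : bcX (K0 A) (M * q) ⟨y, hy⟩ = ((v : (FN (M * q))ˣ) : FN (M * q)) := Subtype.ext hyx
  have hy0 : (⟨y, hy⟩ : FK (K0 A) (M * q)) ≠ 0 := by
    intro h0
    rw [h0, map_zero] at hbc
    exact Units.ne_zero _ hbc.symm
  refine ⟨⟨y, hy⟩, v, hbc.symm, hcls, ?_⟩
  -- the valuations
  have hG := Hecke.isGaussFN_gaussFN hq hA (M * q)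
  obtain ⟨⟨r, h1⟩, ⟨r', h2⟩⟩ := redS_T_div_pow hq hqM hA hℓ hℓN D H hu0
  rw [← hvf, ← hbc] at h1 h2
  have hφ : A.comap (algebraMap (K0 A) Kbar) = A0 A := rfl
  intro i
  rw [val_eq_one_iff_mem _ hy0]
  fin_cases i
  · constructor
    · exact (mem_VV_zero_iff_bcX_mem hφ hc hG _).2 (mem_of_redS_one hG h1)
    · refine (mem_VV_zero_iff_bcX_mem hφ hc hG _).2 ?_
      rw [map_inv₀]
      have := h1.inv
      rw [inv_one] at this
      exact mem_of_redS_one hG (f := (bcX (K0 A) (M * q) ⟨y, hy⟩)⁻¹) this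
  · constructor
    · exact (mem_VV_one_iff_bcX_mem hφ hq hc D hG _).2 (mem_of_redS_one hG h2)
    · refine (mem_VV_one_iff_bcX_mem hφ hq hc D hG _).2 ?_
      show D.w (bcX (K0 A) (M * q) (⟨y, hy⟩ : FK (K0 A) (M * q))⁻¹) ∈ Hecke.gaussFN A hq hA (M * q)
      rw [map_inv₀, map_inv₀]
      have := h2.inv
      rw [inv_one] at this
      exact mem_of_redS_one hG (f := (D.w (bcX (K0 A) (M * q) ⟨y, hy⟩))⁻¹) this

end Fermat.Agent.S43.E0.Vert

end
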